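/-
Cluster J (S59), J8, leaf (SG-q): growth of the cotangent space (= dual Selmer group) when the
condition "unramified at `q`" is dropped, `q ≠ p`.
STUB (owner: see NOTES/blueprint-J-S59.md).  Reference: Wiles, Prop. 1.9 / (1.?); DDT, §2.7-2.8.

`𝒟'` any deformation condition with cyclotomic determinant, `𝒟 = 𝒟' ∧ (unramified at q)`,
`red : R' → R` the natural map, `x : R → 𝒪` a point with representation `ρ₀` (unramified at `q`),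
`a = tr ρ₀(Frob_q)`.  Then
  `length Φ_{R'}  ≤  length Φ_R  +  length 𝒪/((q - 1)(a² - (q + 1)²))`.
Proof sketch: `Hom_𝒪(Φ, 𝒪/ϖⁿ)` = deformations of `ρ₀ mod ϖⁿ` to the dual numbers = cocycle classes
`c` with values in `ad⁰ρ₀ ⊗ 𝒪/ϖⁿ`; the classes for `R'` modulo those for `R` inject (restriction to
inertia at `q`, which acts through its tame `p`-quotient `⟨τ⟩` with `φ τ φ⁻¹ = τ^q`) into
`ker(Ad ρ₀(φ) - q)` on `ad⁰ ⊗ 𝒪/ϖⁿ`, of length `≤ v(det(Ad ρ₀(φ) - q)) = v((1-q)((1+q)² - a²)/q)`.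
-/
import Fermat.Agent.S59.NumCrit.Defs
import Fermat.Agent.S59.Conditions

set_option autoImplicit false

namespace Fermat.Agent.S59

open IsLocalRing

/-- The condition "unramified at `q`". -/
def condUnrAt (𝒪 : Type) [CommRing 𝒪] (q : ℕ) :
    ∀ ⦃A : Type⦄ [CommRing A] [IsLocalRing A] [Algebra 𝒪 A], GaloisRepAdic A → Prop :=
  fun _A _ _ _ ρ => ρ.IsUnramifiedAt q

theorem cotLength_le_add_of_unramifiedAt
    {𝒪 : Type} [CommRing 𝒪] [IsDomain 𝒪] [IsDiscreteValuationRing 𝒪]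
    [IsAdicComplete (maximalIdeal 𝒪) 𝒪] [Finite (ResidueField 𝒪)]
    (p q : ℕ) [Fact p.Prime] (hq : q.Prime) (hqp : q ≠ p) (hp𝒪 : (p : 𝒪) ∈ maximalIdeal 𝒪)
    {ρbar : ResidualGaloisRep (ResidueField 𝒪)}
    {𝒟' : ∀ ⦃A : Type⦄ [CommRing A] [IsLocalRing A] [Algebra 𝒪 A], GaloisRepAdic A → Prop}
    (h𝒟' : GaloisRep.IsDeformationCondition 𝒪 𝒟')
    (hdet : ∀ ⦃A : Type⦄ [CommRing A] [IsLocalRing A] [Algebra 𝒪 A] (ρ : GaloisRepAdic A),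
      𝒟' ρ → ρ.DetIsCyclotomic p)
    (DR' : GaloisRep.DeformationRingData 𝒪 ρbar 𝒟')
    (DR : GaloisRep.DeformationRingData 𝒪 ρbar (condAnd 𝒟' (condUnrAt 𝒪 q)))
    (red : DR'.R →ₐ[𝒪] DR.R) (hred : IsLocalHom (red : DR'.R →+* DR.R))
    (hredρ : (DR'.ρ.baseChangeAlong (red : DR'.R →+* DR.R) hred).IsEquiv DR.ρ)
    (x : DR.R →ₐ[𝒪] 𝒪) (hx : IsLocalHom (x : DR.R →+* 𝒪)) (a : 𝒪)
    (ha : ∀ A : ValuationSubring (AlgebraicClosure ℚ), A.LiesOverPrime q →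
      ∀ σ : AlgebraicClosure ℚ ≃ₐ[ℚ] AlgebraicClosure ℚ, A.IsFrobeniusAt σ q →
        (DR.ρ.baseChangeAlong (x : DR.R →+* 𝒪) hx).trace σ = a) :
    cotLength (x.comp red) ≤ cotLength x +
      Module.length 𝒪 (𝒪 ⧸ Ideal.span {((q : 𝒪) - 1) * (a ^ 2 - ((q : 𝒪) + 1) ^ 2)}) := by
  sorry

end Fermat.Agent.S59
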